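/-
S52 / piece B3 — `B3Goal` (frozen interface of squad-lead helper60) PROVED, helper531.
Adapter from `Fermat.Agent.S52.H531.exists_irr3` (Hilbert irreducibility by hand).
-/
import Fermat.Agent.S52.B3.Statement
import Fermat.Agent.S52.H531.Irr3

set_option autoImplicit false

open Polynomial

namespace Fermat.Agent.S52.B3.H531

theorem homEval_eq_homEval (P : ℤ[X]) (d : ℕ) (M n : ℤ) :
    Fermat.Agent.S52.B3.homEval P d M n = Fermat.Agent.S52.H531.homEval P d M n := rfl

/-- **B3Goal** (frozen statement of `Fermat/Agent/S52/B3/Statement.lean`). -/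
theorem b3Goal : Fermat.Agent.S52.B3.B3Goal := by
  intro W hΔ hred C4 C6 h4 h6 hC4 hC6 hno M hM m hm r N0
  have hgen : ∀ P : ℚ[X], Fermat.Agent.S52.H531.psiQ (Fermat.Agent.S52.H531.polyK ℚ C4)
      (Fermat.Agent.S52.H531.polyK ℚ C6) P ≠ 0 := by
    intro P hP
    apply hno P
    rw [Fermat.Agent.S52.H531.psiQ_eq] at hP
    unfold Fermat.Agent.S52.B3.quartic Fermat.Agent.S52.B3.famA Fermat.Agent.S52.B3.famB
    have e27 : (C (-27 : ℚ) : ℚ[X]) = -27 := by rw [C_neg, map_ofNat]
    have e54 : (C (-54 : ℚ) : ℚ[X]) = -54 := by rw [C_neg, map_ofNat]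
    rw [e27, e54]
    unfold Fermat.Agent.S52.H531.polyK at hP
    linear_combination hP
  have hM' : (M : ℤ) ≠ 0 := by exact_mod_cast hM.ne'
  obtain ⟨k, hk, hirr⟩ := Fermat.Agent.S52.H531.exists_irr3 10 C4 C6 (by simpa using h4)
    (by simpa using h6) W hΔ hred (by rw [← hC4, coeff_zero_eq_eval_zero])
    (by rw [← hC6, coeff_zero_eq_eval_zero]) hgen (M : ℤ) hM' m hm r (N0 + 1)
  have hkn : k ≤ r + m * k := by nlinarith
  refine ⟨r + m * k, by omega, by omega, ?_, fun W' h4' h6' hΔ' => ?_⟩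
  · show (r + m * k) % m = r % m
    rw [Nat.add_mul_mod_self_left]
  · apply hirr W' hΔ'
    · rw [h4', homEval_eq_homEval]
    · rw [h6', homEval_eq_homEval]

end Fermat.Agent.S52.B3.H531
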