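/-
S52 / piece B3n-fam — generic irreducibility for the EXPLICIT 5-congruent family (helper531).

`noPolyRoot_fam c4 c6 (h : c4^3 ≠ c6^2) :
    NoPolyRoot (famA (Fam.C4 (C c4) (C c6) X)) (famB (Fam.C6 (C c4) (C c6) X))`

i.e. the `ψ₃`-quartic of the family `(C4(τ), C6(τ))` of helper952 (`Fam/Defs.lean`) has no root in
`ℚ[τ]`.  Inputs (all landed): helper952 `Fam.syzygy`, `Fam.C4_ne_zero_of_Fk_eq_zero` (Lemma SS),
helper396 `noPolyRoot_fam_of_coprime_F` (Mason–Stothers shape), plus `natDegree Fk = 12`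
(the leading form `Fk_12` is anisotropic: its discriminant is `11·3456²`).
-/
import Fermat.Agent.S52.B3.H396.NoPolyRootAbs
import Fermat.Agent.S52.Fam.SS

set_option autoImplicit false

open Polynomial

namespace Fermat.Agent.S52.B3.H531

open Fermat.Agent.S52.Fam Fermat.Agent.S52.B3

/-- `x² = 11 y²` has only the trivial integer solution. -/
theorem eq_zero_of_sq_eq_eleven_mul_sq (x y : ℤ) (h : x ^ 2 = 11 * y ^ 2) : y = 0 := by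
  by_contra hy
  have hirr : Irrational (√((11 : ℕ) : ℝ)) := Nat.Prime.irrational_sqrt (by norm_num)
  apply hirr
  refine ⟨|(x : ℚ) / y|, ?_⟩
  have hy' : (y : ℝ) ≠ 0 := by exact_mod_cast hy
  have hsq : ((x : ℝ) / y) ^ 2 = ((11 : ℕ) : ℝ) := by
    have hR : (x : ℝ) ^ 2 = 11 * (y : ℝ) ^ 2 := by exact_mod_cast h
    rw [div_pow, hR]
    field_simp
    norm_num
  rw [← hsq, Real.sqrt_sq_eq_abs]
  push_cast
  rfl

/-- The leading coefficient `Fk_12 = 91125 c₄⁶ − 193536 c₄³c₆² + 102400 c₆⁴` of `Fk` does not vanish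
when `c₄³ ≠ c₆²` (anisotropic binary form in `(c₄³, c₆²)`: discriminant `11·3456²`). -/
theorem Fk_12_ne_zero_int (c4 c6 : ℤ) (h : c4 ^ 3 ≠ c6 ^ 2) : Fk_12 c4 c6 ≠ 0 := by
  intro h0
  have key : (182250 * c4 ^ 3 - 193536 * c6 ^ 2) ^ 2 = 11 * (3456 * c6 ^ 2) ^ 2 := by
    unfold Fk_12 at h0
    linear_combination (4 * 91125) * h0
  have hv := eq_zero_of_sq_eq_eleven_mul_sq _ _ key
  have hc6 : c6 = 0 := by
    have : c6 ^ 2 = 0 := by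
      rcases mul_eq_zero.mp hv with h' | h'
      · norm_num at h'
      · exact h'
    exact pow_eq_zero_iff (two_ne_zero) |>.mp this
  subst hc6
  have hc4 : c4 = 0 := by
    unfold Fk_12 at h0
    have : c4 ^ 6 = 0 := by
      have h1 : (91125 : ℤ) * c4 ^ 6 = 0 := by linear_combination h0
      rcases mul_eq_zero.mp h1 with h' | h'
      · norm_num at h'
      · exact h'
    exact pow_eq_zero_iff (by norm_num) |>.mp this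
  subst hc4
  exact h (by norm_num)

/-- The family polynomials over `ℚ[X]`. -/
theorem map_famC4 (c4 c6 : ℤ) :
    (Fam.C4 (C c4) (C c6) (X : ℤ[X])).map (Int.castRingHom ℚ)
      = Fam.C4 (C (c4 : ℚ)) (C (c6 : ℚ)) (X : ℚ[X]) := by
  have := Fermat.Agent.S52.B.map_C4 (Polynomial.mapRingHom (Int.castRingHom ℚ)) (C c4) (C c6) X
  simpa using this

theorem map_famC6 (c4 c6 : ℤ) :
    (Fam.C6 (C c4) (C c6) (X : ℤ[X])).map (Int.castRingHom ℚ)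
      = Fam.C6 (C (c4 : ℚ)) (C (c6 : ℚ)) (X : ℚ[X]) := by
  have := Fermat.Agent.S52.B.map_C6 (Polynomial.mapRingHom (Int.castRingHom ℚ)) (C c4) (C c6) X
  simpa using this

theorem natDegree_famC4_le (c4 c6 : ℤ) : (Fam.C4 (C c4) (C c6) (X : ℤ[X])).natDegree ≤ 20 := by
  unfold Fam.C4 C4_0 C4_1 C4_2 C4_3 C4_4 C4_5 C4_6 C4_7 C4_8 C4_9 C4_10 C4_11 C4_12 C4_13
    C4_14 C4_15 C4_16 C4_17 C4_18 C4_19 C4_20
  compute_degree

theorem natDegree_famC6_le (c4 c6 : ℤ) : (Fam.C6 (C c4) (C c6) (X : ℤ[X])).natDegree ≤ 30 := by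
  unfold Fam.C6 C6_0 C6_1 C6_2 C6_3 C6_4 C6_5 C6_6 C6_7 C6_8 C6_9 C6_10 C6_11 C6_12 C6_13
    C6_14 C6_15 C6_16 C6_17 C6_18 C6_19 C6_20 C6_21 C6_22 C6_23 C6_24 C6_25 C6_26 C6_27 C6_28
    C6_29 C6_30
  compute_degree

theorem natDegree_famFk_le (a b : ℚ) : (Fam.Fk (C a) (C b) (X : ℚ[X])).natDegree ≤ 12 := by
  unfold Fam.Fk Fk_0 Fk_2 Fk_3 Fk_4 Fk_5 Fk_6 Fk_7 Fk_8 Fk_9 Fk_10 Fk_11 Fk_12
  compute_degree

theorem coeff_famFk_twelve (a b : ℚ) :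
    (Fam.Fk (C a) (C b) (X : ℚ[X])).coeff 12 = Fk_12 a b := by
  have e : ∀ (p : ℚ[X]) (n : ℕ), (p * X ^ n).coeff 12 = if n ≤ 12 then p.coeff (12 - n) else 0 := by
    intro p n
    rw [coeff_mul_X_pow']
  have hC : ∀ (k : ℕ) (r : ℚ), 0 < k → (C r : ℚ[X]).coeff k = 0 := by
    intro k r hk
    rw [coeff_C, if_neg hk.ne']
  unfold Fam.Fk
  simp only [coeff_add, e]
  rw [← Fermat.Agent.S52.B.map_Fk_0 (C : ℚ →+* ℚ[X]), ← Fermat.Agent.S52.B.map_Fk_2 (C : ℚ →+* ℚ[X]),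
    ← Fermat.Agent.S52.B.map_Fk_3 (C : ℚ →+* ℚ[X]), ← Fermat.Agent.S52.B.map_Fk_4 (C : ℚ →+* ℚ[X]),
    ← Fermat.Agent.S52.B.map_Fk_5 (C : ℚ →+* ℚ[X]), ← Fermat.Agent.S52.B.map_Fk_6 (C : ℚ →+* ℚ[X]),
    ← Fermat.Agent.S52.B.map_Fk_7 (C : ℚ →+* ℚ[X]), ← Fermat.Agent.S52.B.map_Fk_8 (C : ℚ →+* ℚ[X]),
    ← Fermat.Agent.S52.B.map_Fk_9 (C : ℚ →+* ℚ[X]), ← Fermat.Agent.S52.B.map_Fk_10 (C : ℚ →+* ℚ[X]),
    ← Fermat.Agent.S52.B.map_Fk_11 (C : ℚ →+* ℚ[X]), ← Fermat.Agent.S52.B.map_Fk_12 (C : ℚ →+* ℚ[X])]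
  simp [coeff_C]

theorem natDegree_famFk (c4 c6 : ℤ) (h : c4 ^ 3 ≠ c6 ^ 2) :
    (Fam.Fk (C (c4 : ℚ)) (C (c6 : ℚ)) (X : ℚ[X])).natDegree = 12 := by
  apply le_antisymm (natDegree_famFk_le _ _)
  apply le_natDegree_of_ne_zero
  rw [coeff_famFk_twelve]
  have h1 : Fk_12 (c4 : ℚ) (c6 : ℚ) = ((Fk_12 c4 c6 : ℤ) : ℚ) := by
    have := Fermat.Agent.S52.B.map_Fk_12 (Int.castRingHom ℚ) c4 c6
    simpa using this.symm
  rw [h1]
  exact_mod_cast Fk_12_ne_zero_int c4 c6 h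

/-- Coprimality of `C4` and `Fk` over `ℚ` (Lemma SS over `ℚ̄`). -/
theorem isCoprime_famC4_famFk (c4 c6 : ℤ) (h : c4 ^ 3 ≠ c6 ^ 2) :
    IsCoprime (Fam.C4 (C (c4 : ℚ)) (C (c6 : ℚ)) (X : ℚ[X]))
      (Fam.Fk (C (c4 : ℚ)) (C (c6 : ℚ)) (X : ℚ[X])) := by
  refine (Polynomial.isCoprime_iff_aeval_ne_zero_of_isAlgClosed ℚ (AlgebraicClosure ℚ) _ _).mpr ?_
  intro a
  have e4 : aeval a (Fam.C4 (C (c4 : ℚ)) (C (c6 : ℚ)) (X : ℚ[X]))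
      = Fam.C4 ((c4 : ℚ) : AlgebraicClosure ℚ) ((c6 : ℚ) : AlgebraicClosure ℚ) a := by
    have := Fermat.Agent.S52.B.map_C4 (aeval a : ℚ[X] →ₐ[ℚ] AlgebraicClosure ℚ).toRingHom
      (C (c4 : ℚ)) (C (c6 : ℚ)) X
    simpa using this
  have eF : aeval a (Fam.Fk (C (c4 : ℚ)) (C (c6 : ℚ)) (X : ℚ[X]))
      = Fam.Fk ((c4 : ℚ) : AlgebraicClosure ℚ) ((c6 : ℚ) : AlgebraicClosure ℚ) a := by
    have := Fermat.Agent.S52.B.map_Fk (aeval a : ℚ[X] →ₐ[ℚ] AlgebraicClosure ℚ).toRingHom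
      (C (c4 : ℚ)) (C (c6 : ℚ)) X
    simpa using this
  rw [e4, eF]
  by_cases hF : Fam.Fk ((c4 : ℚ) : AlgebraicClosure ℚ) ((c6 : ℚ) : AlgebraicClosure ℚ) a = 0
  · left
    refine C4_ne_zero_of_Fk_eq_zero (by norm_num) (by norm_num) (by norm_num) _ _ a ?_ hF
    intro hh
    apply h
    have : ((c4 ^ 3 : ℤ) : AlgebraicClosure ℚ) = ((c6 ^ 2 : ℤ) : AlgebraicClosure ℚ) := by
      push_cast
      push_cast at hh
      exact hh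
    exact_mod_cast this
  · right
    exact hF

/-- **B3n-fam**: the `ψ₃`-quartic of the explicit family has no root in `ℚ[τ]`. -/
theorem noPolyRoot_fam (c4 c6 : ℤ) (h : c4 ^ 3 ≠ c6 ^ 2) :
    NoPolyRoot (famA (Fam.C4 (C c4) (C c6) (X : ℤ[X]))) (famB (Fam.C6 (C c4) (C c6) (X : ℤ[X]))) := by
  have hd : ((c4 : ℚ) ^ 3 - (c6 : ℚ) ^ 2) ≠ 0 := by
    intro hh
    apply h
    have : ((c4 ^ 3 : ℤ) : ℚ) = ((c6 ^ 2 : ℤ) : ℚ) := by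
      push_cast
      linarith
    exact_mod_cast this
  refine Fermat.Agent.S52.B3.H396.noPolyRoot_fam_of_coprime_F _ _
    (Fam.Fk (C (c4 : ℚ)) (C (c6 : ℚ)) (X : ℚ[X])) ((c4 : ℚ) ^ 3 - (c6 : ℚ) ^ 2) hd ?_ ?_
    (natDegree_famC4_le c4 c6) (natDegree_famC6_le c4 c6) (natDegree_famFk c4 c6 h)
  · rw [map_famC4, map_famC6, Fam.syzygy]
    simp
  · rw [map_famC4]
    exact isCoprime_famC4_famFk c4 c6 h

end Fermat.Agent.S52.B3.H531
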